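import Mathlib

/-!
# Counting graphs

A graph on `Fin n` is drawn by giving each pair one of `q` values, an edge being the value zero.
-/

set_option autoImplicit false

noncomputable section

namespace FA.HighGirth

open Finset
open Classical

variable {n q : ℕ}

/-- The outcomes. -/
abbrev Outcome (n q : ℕ) := Sym2 (Fin n) → Fin (q + 1)

/-- The graph of an outcome. -/
def graphOf (ω : Outcome n q) : SimpleGraph (Fin n) :=
  SimpleGraph.fromEdgeSet {e | ω e = 0}

theorem adj_graphOf {ω : Outcome n q} {u v : Fin n} :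
    (graphOf ω).Adj u v ↔ ω s(u, v) = 0 ∧ u ≠ v := by
  simp [graphOf]

theorem card_forall_eq (T : Finset (Sym2 (Fin n))) :
    #{ω : Outcome n q | ∀ e ∈ T, ω e = 0} * (q + 1) ^ #T =
      (q + 1) ^ Fintype.card (Sym2 (Fin n)) := by
  have h : ({ω : Outcome n q | ∀ e ∈ T, ω e = 0} : Finset (Outcome n q)) =
      Fintype.piFinset fun e => if e ∈ T then {0} else univ := by
    ext ω
    simp only [mem_filter, mem_univ, true_and, Fintype.mem_piFinset]
    exact ⟨fun h e => by by_cases he : e ∈ T <;> simp [he, h],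
      fun h e he => by simpa [he] using h e⟩
  rw [h, Fintype.card_piFinset]
  simp only [apply_ite card, card_singleton, card_univ, Fintype.card_fin]
  rw [prod_ite, prod_const_one, one_mul, prod_const, ← pow_add,
    show univ.filter (fun e => e ∉ T) = Tᶜ by ext e; simp, card_compl,
    Nat.sub_add_cancel (card_le_univ T)]

theorem card_forall_ne (T : Finset (Sym2 (Fin n))) :
    #{ω : Outcome n q | ∀ e ∈ T, ω e ≠ 0} * (q + 1) ^ #T =
      q ^ #T * (q + 1) ^ Fintype.card (Sym2 (Fin n)) := by
  have h : ({ω : Outcome n q | ∀ e ∈ T, ω e ≠ 0} : Finset (Outcome n q)) =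
      Fintype.piFinset fun e => if e ∈ T then univ.erase 0 else univ := by
    ext ω
    simp only [mem_filter, mem_univ, true_and, Fintype.mem_piFinset]
    exact ⟨fun h e => by by_cases he : e ∈ T <;> simp [he, h],
      fun h e he => by simpa [he] using h e⟩
  rw [h, Fintype.card_piFinset]
  simp only [apply_ite card, card_univ, Fintype.card_fin, card_erase_of_mem (mem_univ _),
    Nat.add_sub_cancel]
  rw [prod_ite, prod_const, prod_const, mul_assoc, ← pow_add,
    show univ.filter (fun e => e ∈ T) = T by ext e; simp,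
    show univ.filter (fun e => e ∉ T) = Tᶜ by ext e; simp, card_compl,
    Nat.sub_add_cancel (card_le_univ T)]

/-- The cyclic sequences of `j + 3` distinct vertices. -/
def IsCyclic (ω : Outcome n q) {j : ℕ} (v : Fin (j + 3) → Fin n) : Prop :=
  Function.Injective v ∧ ∀ i, (graphOf ω).Adj (v i) (v (i + 1))

/-- The cycles of at most `g` vertices, as sequences. -/
def shortCycles (g : ℕ) (ω : Outcome n q) : Finset (Σ j : Fin (g - 2), Fin (j.1 + 3) → Fin n) :=
  univ.filter fun p => IsCyclic ω p.2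

theorem edges_injective {j : ℕ} {v : Fin (j + 3) → Fin n} (hv : Function.Injective v) :
    Function.Injective fun i => s(v i, v (i + 1)) := by
  intro a b h
  rcases Sym2.eq_iff.1 h with ⟨h1, -⟩ | ⟨h1, h2⟩
  · exact hv h1
  · have e1 := hv h1
    have e2 := hv h2
    rw [e1, add_assoc, add_eq_left] at e2
    have := congrArg Fin.val e2
    simp [Fin.val_add] at this
    rw [Nat.mod_eq_of_lt (by omega)] at this
    omega

theorem sum_card_shortCycles_le (g : ℕ) (hn : q + 1 ≤ n) :
    (∑ ω : Outcome n q, #(shortCycles g ω)) * (q + 1) ^ g ≤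
      g * n ^ g * (q + 1) ^ Fintype.card (Sym2 (Fin n)) := by
  simp only [shortCycles, card_filter]
  rw [sum_comm, sum_mul]
  simp only [← card_filter]
  rw [Fintype.sum_sigma]
  have hterm : ∀ (j : Fin (g - 2)) (v : Fin (j.1 + 3) → Fin n),
      #{ω : Outcome n q | IsCyclic ω v} * (q + 1) ^ g ≤
        (q + 1) ^ Fintype.card (Sym2 (Fin n)) * (q + 1) ^ (g - (j.1 + 3)) := by
    intro j v
    by_cases hv : Function.Injective v
    swap
    · simp [IsCyclic, hv]
    set T := univ.image fun i => s(v i, v (i + 1))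
    have hT : #T = j.1 + 3 := by
      rw [card_image_of_injective _ (edges_injective hv), card_univ, Fintype.card_fin]
    have hsub : #{ω : Outcome n q | IsCyclic ω v} ≤ #{ω : Outcome n q | ∀ e ∈ T, ω e = 0} := by
      refine card_le_card fun ω hω => ?_
      simp only [mem_filter, mem_univ, true_and] at hω ⊢
      intro e he
      obtain ⟨i, -, rfl⟩ := mem_image.1 he
      exact (adj_graphOf.1 (hω.2 i)).1
    calc #{ω : Outcome n q | IsCyclic ω v} * (q + 1) ^ g
        = #{ω : Outcome n q | IsCyclic ω v} * (q + 1) ^ #T * (q + 1) ^ (g - (j.1 + 3)) := by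
          rw [hT, mul_assoc, ← pow_add, Nat.add_sub_cancel' (by have := j.2; omega)]
      _ ≤ #{ω : Outcome n q | ∀ e ∈ T, ω e = 0} * (q + 1) ^ #T * (q + 1) ^ (g - (j.1 + 3)) := by
          gcongr
      _ = _ := by rw [card_forall_eq]
  refine (sum_le_sum fun j _ => sum_le_sum fun v _ => hterm j v).trans ?_
  simp only [sum_const, card_univ, Fintype.card_fun, Fintype.card_fin, smul_eq_mul]
  calc ∑ j : Fin (g - 2), n ^ (j.1 + 3) *
        ((q + 1) ^ Fintype.card (Sym2 (Fin n)) * (q + 1) ^ (g - (j.1 + 3)))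
      ≤ ∑ _j : Fin (g - 2), n ^ g * (q + 1) ^ Fintype.card (Sym2 (Fin n)) := by
        refine sum_le_sum fun j _ => ?_
        have hj := j.2
        calc n ^ (j.1 + 3) *
              ((q + 1) ^ Fintype.card (Sym2 (Fin n)) * (q + 1) ^ (g - (j.1 + 3)))
            ≤ n ^ (j.1 + 3) * ((q + 1) ^ Fintype.card (Sym2 (Fin n)) * n ^ (g - (j.1 + 3))) :=
              Nat.mul_le_mul_left _ (Nat.mul_le_mul_left _ (Nat.pow_le_pow_left hn _))
          _ = n ^ g * (q + 1) ^ Fintype.card (Sym2 (Fin n)) := by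
              rw [mul_left_comm, ← pow_add, Nat.add_sub_cancel' (by omega), mul_comm]
    _ ≤ g * n ^ g * (q + 1) ^ Fintype.card (Sym2 (Fin n)) := by
        rw [sum_const, card_univ, Fintype.card_fin, smul_eq_mul, ← mul_assoc]
        gcongr
        omega

theorem card_indep_le (s : ℕ) {b : ℕ} (hb : b ≤ s.choose 2) :
    #{ω : Outcome n q | ∃ S : Finset (Fin n), #S = s ∧ (graphOf ω).IsIndepSet S} * (q + 1) ^ b ≤
      2 ^ n * q ^ b * (q + 1) ^ Fintype.card (Sym2 (Fin n)) := by
  have hsub : ({ω : Outcome n q | ∃ S : Finset (Fin n), #S = s ∧ (graphOf ω).IsIndepSet S} :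
      Finset (Outcome n q)) ⊆ ((univ : Finset (Fin n)).powersetCard s).biUnion fun S =>
        {ω : Outcome n q | ∀ e ∈ S.offDiag.image Sym2.mk.uncurry, ω e ≠ 0} := by
    intro ω hω
    simp only [mem_filter, mem_univ, true_and] at hω
    obtain ⟨S, hS, hi⟩ := hω
    refine mem_biUnion.2 ⟨S, mem_powersetCard.2 ⟨subset_univ _, hS⟩, ?_⟩
    simp only [mem_filter, mem_univ, true_and, mem_image]
    rintro e ⟨⟨u, v⟩, huv, rfl⟩ h0
    obtain ⟨hu, hv, hne⟩ := mem_offDiag.1 huv
    exact hi hu hv hne (adj_graphOf.2 ⟨h0, hne⟩)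
  have hterm : ∀ S ∈ (univ : Finset (Fin n)).powersetCard s,
      #{ω : Outcome n q | ∀ e ∈ S.offDiag.image Sym2.mk.uncurry, ω e ≠ 0} * (q + 1) ^ b ≤
        q ^ b * (q + 1) ^ Fintype.card (Sym2 (Fin n)) := by
    intro S hS
    have hT : #(S.offDiag.image Sym2.mk.uncurry) = s.choose 2 := by
      rw [Sym2.card_image_offDiag, (mem_powersetCard.1 hS).2]
    obtain ⟨c, hc⟩ := Nat.exists_eq_add_of_le hb
    have h := card_forall_ne (q := q) (S.offDiag.image Sym2.mk.uncurry)
    rw [hT, hc, pow_add, pow_add, ← mul_assoc] at h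
    refine Nat.le_of_mul_le_mul_right ?_ (pow_pos q.succ_pos c)
    rw [h, mul_assoc, mul_assoc, mul_comm ((q + 1) ^ Fintype.card (Sym2 (Fin n)))]
    exact Nat.mul_le_mul_left _ (Nat.mul_le_mul_right _ (Nat.pow_le_pow_left q.le_succ _))
  refine le_trans (Nat.mul_le_mul_right _ ((card_le_card hsub).trans card_biUnion_le)) ?_
  rw [sum_mul]
  refine (sum_le_card_nsmul _ _ _ hterm).trans ?_
  rw [card_powersetCard, card_univ, Fintype.card_fin, smul_eq_mul, mul_assoc]
  exact Nat.mul_le_mul_right _ (Nat.choose_le_two_pow n s)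

end FA.HighGirth
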