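import Fermat.Agent.HighGirth.Counting

/-!
# Graphs of large girth and chromatic number

Some outcome has few short cycles and no large independent set; one vertex of each short cycle is
deleted.
-/

set_option autoImplicit false

noncomputable section

namespace FA.HighGirth

open Finset
open Classical

theorem two_mul_pow_le (q : ℕ) : 2 * q ^ (q + 1) ≤ (q + 1) ^ (q + 1) := by
  have h := pow_add_mul_le_add_pow (a := q) (b := 1) (Nat.zero_le _) (Nat.zero_le _) (q + 1)
  simp only [Nat.cast_id, Nat.add_sub_cancel, mul_one] at h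
  rw [pow_succ q q] at h ⊢
  linarith [Nat.zero_le (q ^ q)]

/-- A good outcome. -/
theorem exists_outcome {g k : ℕ} (hk : 0 < k) :
    ∃ n q s : ℕ, n = 2 * k * s ∧ 0 < s ∧ ∃ ω : Outcome n q,
      2 * #(shortCycles g ω) ≤ n ∧ ∀ S : Finset (Fin n), (graphOf ω).IsIndepSet S → #S < s := by
  set d := 32 * k ^ 2 with hd
  have hd1 : 1 ≤ d := by
    have : 0 < k ^ 2 := pow_pos hk 2
    omega
  set q := 4 * g * d ^ g + 1 with hq
  set m := q + 1 with hm
  set n := d * m with hn
  set s := 16 * k * m with hs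
  set E := (q + 1) ^ Fintype.card (Sym2 (Fin n)) with hE
  have hE0 : 0 < E := pow_pos q.succ_pos _
  have hn2 : 2 ≤ n := by
    have : 2 ≤ m := by omega
    calc 2 ≤ 1 * m := by omega
      _ ≤ n := Nat.mul_le_mul_right m hd1
  have hns : n = 2 * k * s := by rw [hn, hd, hs]; ring
  refine ⟨n, q, s, hns, by positivity, ?_⟩
  have hpairs : 2 * n * m ≤ s.choose 2 := by
    rw [Nat.choose_two_right, Nat.le_div_iff_mul_le two_pos]
    have h1 : 2 * n * m * 2 * 2 = s * s := by rw [hn, hd, hs]; ring
    have h2 : 2 ≤ s := by rw [hs]; nlinarith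
    have h3 : s * s ≤ 2 * (s * (s - 1)) := by
      obtain ⟨t, ht⟩ := Nat.exists_eq_add_of_le h2
      rw [ht, show 2 + t - 1 = t + 1 by omega]
      nlinarith
    omega
  -- independent sets
  set A := ({ω : Outcome n q | ∃ S : Finset (Fin n), #S = s ∧ (graphOf ω).IsIndepSet S} :
    Finset (Outcome n q)) with hA
  have hAb : 4 * #A ≤ E := by
    have h1 := card_indep_le (n := n) (q := q) s hpairs
    rw [← hA, ← hE] at h1
    have h2 : 2 ^ (2 * n) * q ^ (2 * n * m) ≤ (q + 1) ^ (2 * n * m) := by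
      rw [mul_comm (2 * n) m, pow_mul q, pow_mul (q + 1), ← mul_pow]
      exact Nat.pow_le_pow_left (two_mul_pow_le q) _
    have h3 : #A * 2 ^ (2 * n) * q ^ (2 * n * m) ≤ 2 ^ n * E * q ^ (2 * n * m) := by
      calc #A * 2 ^ (2 * n) * q ^ (2 * n * m) ≤ #A * (q + 1) ^ (2 * n * m) := by
            rw [mul_assoc]; exact Nat.mul_le_mul_left _ h2
        _ ≤ _ := h1.trans_eq (by ring)
    have h4 := Nat.le_of_mul_le_mul_right h3 (pow_pos (by omega) _)
    rw [two_mul, pow_add, ← mul_assoc, mul_comm (2 ^ n) E] at h4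
    have h5 := Nat.le_of_mul_le_mul_right h4 (pow_pos two_pos n)
    have h6 : 2 ^ 2 ≤ 2 ^ n := Nat.pow_le_pow_right two_pos hn2
    calc 4 * #A ≤ 2 ^ n * #A := Nat.mul_le_mul_right _ h6
      _ ≤ E := by rw [mul_comm]; exact h5
  -- short cycles
  set B := ({ω : Outcome n q | n < 2 * #(shortCycles g ω)} : Finset (Outcome n q))
  have hBb : 2 * #B ≤ E := by
    have hmn : q + 1 ≤ n := by rw [hn]; exact Nat.le_mul_of_pos_left _ hd1
    have h1 := sum_card_shortCycles_le (n := n) (q := q) g hmn
    rw [← hE, hn, mul_pow] at h1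
    rw [show g * (d ^ g * m ^ g) * E = g * d ^ g * E * (q + 1) ^ g by rw [hm]; ring] at h1
    have h2 := Nat.le_of_mul_le_mul_right h1 (pow_pos q.succ_pos g)
    rw [← hn] at h2
    have h3 : #B * n ≤ 2 * ∑ ω : Outcome n q, #(shortCycles g ω) := by
      rw [mul_sum]
      calc #B * n = ∑ _ω ∈ B, n := by rw [sum_const, smul_eq_mul]
        _ ≤ ∑ ω ∈ B, 2 * #(shortCycles g ω) := sum_le_sum fun ω hω => (mem_filter.1 hω).2.le
        _ ≤ _ := sum_le_sum_of_subset (subset_univ B)
    have h4 : 4 * g * d ^ g ≤ n := by omega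
    by_contra hcon
    push Not at hcon
    have h5 : (E + 1) * n ≤ 4 * g * d ^ g * E := by
      calc (E + 1) * n ≤ 2 * #B * n := Nat.mul_le_mul_right _ hcon
        _ ≤ 2 * (2 * ∑ ω : Outcome n q, #(shortCycles g ω)) := by
            rw [mul_assoc]; exact Nat.mul_le_mul_left _ h3
        _ ≤ _ := by nlinarith
    nlinarith
  have hcard : Fintype.card (Outcome n q) = E := by simp [hE]
  obtain ⟨ω, -, hω⟩ := exists_mem_notMem_of_card_lt_card (s := A ∪ B) (t := univ) (by
    rw [card_univ, hcard]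
    have := card_union_le A B
    omega)
  simp only [hA, B, mem_union, mem_filter, mem_univ, true_and, not_or, not_lt, not_exists,
    not_and] at hω
  refine ⟨ω, hω.2, fun S hS => not_le.1 fun hle => ?_⟩
  obtain ⟨U, hUS, hU⟩ := exists_subset_card_eq hle
  exact hω.1 U hU (hS.mono (coe_subset.2 hUS))

/-- Erdős's theorem. -/
theorem exists_graph (g k : ℕ) :
    ∃ (N : ℕ) (G : SimpleGraph (Fin N)), (g : ℕ∞) < G.egirth ∧ (k : ℕ∞) < G.chromaticNumber := by
  obtain ⟨n, q, s, hn, hs, ω, hcyc, hind⟩ := exists_outcome (g := g) (k := k + 1) k.succ_pos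
  set D := (shortCycles g ω).image fun p => p.2 0
  set W : Finset (Fin n) := univ \ D
  have hW : (k + 1) * s ≤ #W := by
    have h1 : #D ≤ #(shortCycles g ω) := card_image_le
    rw [card_sdiff_of_subset (subset_univ D), card_univ, Fintype.card_fin]
    rw [mul_assoc] at hn
    omega
  set e : Fin #W ↪ Fin n := W.equivFin.symm.toEmbedding.trans (Function.Embedding.subtype _)
  refine ⟨#W, (graphOf ω).comap e, ?_, ?_⟩
  · refine lt_of_lt_of_le (ENat.natCast_lt_succ (n := g)) ?_
    rw [SimpleGraph.le_egirth]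
    intro a w hw
    rw [← Nat.cast_one, ← Nat.cast_add, Nat.cast_le]
    by_contra hlen
    push Not at hlen
    have h3 := hw.three_le_length
    obtain ⟨j, hj⟩ := Nat.exists_eq_add_of_le h3
    have hv : IsCyclic ω fun i : Fin (j + 3) => e (w.getVert i) := by
      refine ⟨fun x y hxy => Fin.ext ?_, fun i => ?_⟩
      · exact hw.getVert_injOn' (by simp only [Set.mem_ofPred_eq]; omega)
          (by simp only [Set.mem_ofPred_eq]; omega) (e.injective hxy)
      · have := w.adj_getVert_succ (i := i.1) (by omega)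
        show (graphOf ω).Adj (e (w.getVert i)) (e (w.getVert ↑(i + 1)))
        rw [Fin.val_add_one]
        split_ifs with hlast
        · rw [SimpleGraph.Walk.getVert_zero]
          rw [hlast, Fin.val_last] at this ⊢
          rw [show j + 2 + 1 = w.length by omega, SimpleGraph.Walk.getVert_length] at this
          exact this
        · exact this
    have hmem : e (w.getVert 0) ∈ D := mem_image.2
      ⟨⟨⟨j, by omega⟩, fun i => e (w.getVert i)⟩, mem_filter.2 ⟨mem_univ _, hv⟩, by simp⟩
    exact (mem_sdiff.1 (W.equivFin.symm (w.getVert 0)).2).2 hmem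
  · rw [← not_le, SimpleGraph.chromaticNumber_le_iff_colorable]
    rintro ⟨C⟩
    have : Nonempty (Fin k) := ⟨C ⟨0, by nlinarith⟩⟩
    obtain ⟨c, hc⟩ := Fintype.exists_le_card_fiber_of_mul_le_card (fun x : Fin #W => C x)
      (n := s) (by rw [Fintype.card_fin, Fintype.card_fin]; nlinarith)
    have hI : (graphOf ω).IsIndepSet (((univ.filter fun x => C x = c).map e : Finset (Fin n)) :
        Set (Fin n)) := by
      intro u hu v hv hne hadj
      obtain ⟨x, hx, rfl⟩ := mem_map.1 (mem_coe.1 hu)
      obtain ⟨y, hy, rfl⟩ := mem_map.1 (mem_coe.1 hv)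
      exact C.valid (v := x) (w := y) hadj ((mem_filter.1 hx).2.trans (mem_filter.1 hy).2.symm)
    have := hind _ hI
    rw [card_map] at this
    omega

end FA.HighGirth
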